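import Fermat.Agent.S56.GW.Dual.Global

/-!
# S56 / [GW-DUAL] X-side: the cochain-level core as a seam (prefix `s56gdk_`)

**θ-data at a level `b`** (`s56gdk_IsTheta`; all maps ADDITIVE, equivariance is phrased through
`G_ℚ`):

* `Ψ : F → ∏_{q ∈ S} J_q(b)` with `Σ_q j_q ∘ Ψ_q : F → C(b)` equivariant;
* `ut : F → E_S` and `u : R → E(b)` with `ut ∘ ι = incl_b ∘ u`;
* `ψ := Ψ ∘ ι − ε ∘ u : R → ∏_q J_q(b)` equivariant.

**The cocycle of θ-data** (`s56gdk_Rel`): `z : G_ℚ → M` with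
`i (z σ) = incl_b ∘ ε⁻¹ (σ Ψ − Ψ) − (σ ut − ut)` in `T_F = Hom(F, E_S)`.

* `s56gdk_CoreE_stmt` : θ-data have a level-constant cocycle `z`;
* `s56gdk_CoreL_stmt` : for ANY level-constant cocycle `z` of θ-data, `loc_q [z] = δ⁰(t_q)` for all
  `q ∈ S`, `t_q` being any element of `Hom_{G_q}(R, (ℚ̄_q)ˣ)` with values `λ_{b,q}(pr_q(ψ(r)_q))`.

[X2] = CoreE + CoreL + (D5-b) (lift `φ_F`, extend `incl ∘ u`); [X1] = CoreL + (D5-a).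
-/

set_option autoImplicit false
set_option linter.unusedSectionVars false

open CategoryTheory groupCohomology ExtCitation

namespace Fermat.Agent.S56

open Fermat.Agent.S55

local notation "Qbar" => AlgebraicClosure ℚ
local notation "GQ" => (AlgebraicClosure ℚ ≃ₐ[ℚ] AlgebraicClosure ℚ)

noncomputable section

section Defs

variable {p : ℕ} [Fact p.Prime] (hp2 : p ≠ 2) (M : Rep.{0} (ZMod p) GQ)
  [FiniteDimensional (ZMod p) M] (hsm : s56gw_Smooth M)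
  (S : Finset Nat.Primes) (hpS : pPrime p ∈ S) (b : du_Lev S)

/-- **The global Hom-side sequence** `0 → M → T_F → T_R → 0`, `T_Y = Hom(Y, E_S)`. -/
abbrev s56gdk_Eg : LvSES GQ (tl_Act M) (dm_T S (s56gd_pi0 M hsm) (s56gd_F M hsm))
    (dm_T S (s56gd_pi0 M hsm) (s56gd_R M hsm)) :=
  dm_Eglob S hpS M (s56gd_pi0 M hsm) (s56gd_A M hsm) (s56gd_e M hsm) (s56gd_he M hsm)
    (s56gd_zeta_spec p)

/-- **θ-data at the level `b`.** -/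
def s56gdk_IsTheta
    (Ψ : (s56gd_F M hsm).V →+ (∀ q : ↥S, (((s56gd_seam hp2 S hpS).dat b).Jq q).V))
    (ut : (s56gd_F M hsm).V →+ dm_ES S)
    (u : (s56gd_R M hsm).V →+ ((s56gd_seam hp2 S hpS).E b).V) : Prop :=
  (∀ r : (s56gd_R M hsm).V,
    dm_ql_incl (s56gd_seam hp2 S hpS) b (u r) = ut ((la_ι (s56gd_A M hsm)).hom r)) ∧
  (∀ (σ : GQ) (f : (s56gd_F M hsm).V),
    (∑ q : ↥S, (((s56gd_seam hp2 S hpS).dat b).j q).hom
        (Ψ ((s56gd_F M hsm).ρ (s56gd_pi0 M hsm σ) f) q)) =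
      ((s56gd_seam hp2 S hpS).dat b).C.ρ (b.q σ)
        (∑ q : ↥S, (((s56gd_seam hp2 S hpS).dat b).j q).hom (Ψ f q))) ∧
  (∀ (σ : GQ) (r : (s56gd_R M hsm).V) (q : ↥S),
    Ψ ((la_ι (s56gd_A M hsm)).hom ((s56gd_R M hsm).ρ (s56gd_pi0 M hsm σ) r)) q -
        ((s56gd_seam hp2 S hpS).ε b q).hom (u ((s56gd_R M hsm).ρ (s56gd_pi0 M hsm σ) r)) =
      (((s56gd_seam hp2 S hpS).dat b).Jq q).ρ (b.q σ)
        (Ψ ((la_ι (s56gd_A M hsm)).hom r) q - ((s56gd_seam hp2 S hpS).ε b q).hom (u r)))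

/-- **`z` is the cocycle of the θ-data `(Ψ, ut)`**:
`i (z σ) = incl_b ∘ ε⁻¹ (σ Ψ − Ψ) − (σ ut − ut)`. -/
def s56gdk_Rel
    (Ψ : (s56gd_F M hsm).V →+ (∀ q : ↥S, (((s56gd_seam hp2 S hpS).dat b).Jq q).V))
    (ut : (s56gd_F M hsm).V →+ dm_ES S) (z : GQ → tl_Act M) : Prop :=
  ∀ (σ : GQ) (f : (s56gd_F M hsm).V), ∃ e : ((s56gd_seam hp2 S hpS).E b).V,
    (∀ q : ↥S, ((s56gd_seam hp2 S hpS).ε b q).hom e =
      (((s56gd_seam hp2 S hpS).dat b).Jq q).ρ (b.q σ)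
        (Ψ ((s56gd_F M hsm).ρ (s56gd_pi0 M hsm σ⁻¹) f) q) - Ψ f q) ∧
    (s56gdk_Eg M hsm S hpS).i (z σ) f =
      dm_ql_incl (s56gd_seam hp2 S hpS) b e -
        (σ • ut ((s56gd_F M hsm).ρ (s56gd_pi0 M hsm σ⁻¹) f) - ut f)

/-- The values of `t_q = λ ∘ pr_q ∘ ψ_q`, `ψ = Ψ ∘ ι − ε ∘ u`. -/
def s56gdk_IsT
    (Ψ : (s56gd_F M hsm).V →+ (∀ q : ↥S, (((s56gd_seam hp2 S hpS).dat b).Jq q).V))
    (u : (s56gd_R M hsm).V →+ ((s56gd_seam hp2 S hpS).E b).V) (q : ↥S)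
    (t : lvH0 (G := primeLocalGaloisGroup q.1) (s56gd_TRl M hsm q.1)) : Prop :=
  ∀ r : (s56gd_R M hsm).V, (t : s56gd_TRl M hsm q.1) r =
    (s56gd_seam hp2 S hpS).lam b q ((((s56gd_seam hp2 S hpS).dat b).pr q).hom
      (Ψ ((la_ι (s56gd_A M hsm)).hom r) q - ((s56gd_seam hp2 S hpS).ε b q).hom (u r)))

end Defs

/-- **SEAM [XK-E]: θ-data have a level-constant cocycle.** -/
def s56gdk_CoreE_stmt : Prop :=
  ∀ (p : ℕ) [Fact p.Prime] (hp2 : p ≠ 2) (M : Rep.{0} (ZMod p) GQ)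
    [FiniteDimensional (ZMod p) M] (hsm : s56gw_Smooth M)
    (S : Finset Nat.Primes) (hpS : pPrime p ∈ S), s56gw_UnrOut S M →
    ∀ (b : du_Lev S), s56gd_K0 M hsm ≤ s56gd_Fld.ofLev b →
    ∀ (Ψ : (s56gd_F M hsm).V →+ (∀ q : ↥S, (((s56gd_seam hp2 S hpS).dat b).Jq q).V))
      (ut : (s56gd_F M hsm).V →+ dm_ES S)
      (u : (s56gd_R M hsm).V →+ ((s56gd_seam hp2 S hpS).E b).V),
      s56gdk_IsTheta hp2 M hsm S hpS b Ψ ut u →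
      ∃ z : lvZ1 (tl_levelsS S) (tl_Act M),
        s56gdk_Rel hp2 M hsm S hpS b Ψ ut (z : GQ → tl_Act M)

/-- **SEAM [XK-L]: the localisations of the class of θ-data.** -/
def s56gdk_CoreL_stmt : Prop :=
  ∀ (p : ℕ) [Fact p.Prime] (hp2 : p ≠ 2) (M : Rep.{0} (ZMod p) GQ)
    [FiniteDimensional (ZMod p) M] (hsm : s56gw_Smooth M)
    (S : Finset Nat.Primes) (hpS : pPrime p ∈ S), s56gw_UnrOut S M →
    ∀ (b : du_Lev S), s56gd_K0 M hsm ≤ s56gd_Fld.ofLev b →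
    ∀ (Ψ : (s56gd_F M hsm).V →+ (∀ q : ↥S, (((s56gd_seam hp2 S hpS).dat b).Jq q).V))
      (ut : (s56gd_F M hsm).V →+ dm_ES S)
      (u : (s56gd_R M hsm).V →+ ((s56gd_seam hp2 S hpS).E b).V),
      s56gdk_IsTheta hp2 M hsm S hpS b Ψ ut u →
      ∀ z : lvZ1 (tl_levelsS S) (tl_Act M),
        s56gdk_Rel hp2 M hsm S hpS b Ψ ut (z : GQ → tl_Act M) →
        ∀ (q : ↥S) (t : lvH0 (G := primeLocalGaloisGroup q.1) (s56gd_TRl M hsm q.1)),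
          s56gdk_IsT hp2 M hsm S hpS b Ψ u q t →
          s56gd_lvloc M S q.1 (lvH1mk (tl_levelsS S) (tl_Act M) z) = s56gd_d0 M hsm q.1 t

end

end Fermat.Agent.S56
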