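import Fermat.Agent.S56.GW.Dual.XK.Stmt

/-!
# S56 / [GW-DUAL] X-side: the cocycle of θ-data (prefix `s56gdk_`)

`s56gdk_coreE : s56gdk_CoreE_stmt`.
-/

set_option autoImplicit false
set_option linter.unusedSectionVars false

open CategoryTheory groupCohomology ExtCitation

namespace Fermat.Agent.S56

open Fermat.Agent.S55

local notation "Qbar" => AlgebraicClosure ℚ
local notation "GQ" => (AlgebraicClosure ℚ ≃ₐ[ℚ] AlgebraicClosure ℚ)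

noncomputable section

section Core

variable {p : ℕ} [Fact p.Prime] (hp2 : p ≠ 2) (M : Rep.{0} (ZMod p) GQ)
  [FiniteDimensional (ZMod p) M] (hsm : s56gw_Smooth M)
  (S : Finset Nat.Primes) (hpS : pPrime p ∈ S) (b : du_Lev S)

include hpS in
/-- The kernel of `π₀` contains a level of `G_S`. -/
theorem s56gdk_hpi0 (hur : s56gw_UnrOut S M) :
    ∃ U ∈ (tl_levelsS S).levels, U ≤ (s56gd_pi0 M hsm).ker :=
  ⟨(s56gd_K0 M hsm).L.fixingSubgroup, ⟨_, s56gd_K0_unr M hsm S hpS hur, rfl⟩, by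
    rw [s56gd_Fld.ker_q]⟩

/-- `π₀` is trivial on `Fix(b.L)` for `b ≥ K0`. -/
theorem s56gdk_pi0_eq_one (hb : s56gd_K0 M hsm ≤ s56gd_Fld.ofLev b) {s : GQ}
    (hs : s ∈ b.L.fixingSubgroup) : s56gd_pi0 M hsm s = 1 := by
  rw [s56gd_Fld.q_eq_one_iff]
  exact IntermediateField.fixingSubgroup_antitone hb hs

/-- `b.q` is trivial on `Fix(b.L)`. -/
theorem s56gdk_bq_eq_one {s : GQ} (hs : s ∈ b.L.fixingSubgroup) : b.q s = 1 := by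
  have h : s ∈ (b.q).ker := by
    rw [b.ker_q]
    exact hs
  exact h

/-- The diagonal embedding `E(b) → ∏_q J_q(b)`. -/
def s56gdk_epsP : ((s56gd_seam hp2 S hpS).E b).V →+
    (∀ q : ↥S, (((s56gd_seam hp2 S hpS).dat b).Jq q).V) where
  toFun e q := ((s56gd_seam hp2 S hpS).ε b q).hom e
  map_zero' := by
    funext q
    exact map_zero ((s56gd_seam hp2 S hpS).ε b q).hom
  map_add' e e' := by
    funext q
    exact map_add ((s56gd_seam hp2 S hpS).ε b q).hom e e'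

theorem s56gdk_epsP_apply (e : ((s56gd_seam hp2 S hpS).E b).V) (q : ↥S) :
    s56gdk_epsP hp2 S hpS b e q = ((s56gd_seam hp2 S hpS).ε b q).hom e := rfl

theorem s56gdk_epsP_injective : Function.Injective (s56gdk_epsP hp2 S hpS b) := by
  intro e e' h
  exact (s56gd_seam hp2 S hpS).ε_inj b ⟨pPrime p, hpS⟩ (congrFun h ⟨pPrime p, hpS⟩)

section Theta

variable (Ψ : (s56gd_F M hsm).V →+ (∀ q : ↥S, (((s56gd_seam hp2 S hpS).dat b).Jq q).V))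
  (ut : (s56gd_F M hsm).V →+ dm_ES S)
  (u : (s56gd_R M hsm).V →+ ((s56gd_seam hp2 S hpS).E b).V)

/-- `F.ρ (π₀ σ) (F.ρ (π₀ σ⁻¹) f) = f`. -/
theorem s56gdk_rho_inv {Δ : Type} [Group Δ] (Y : Rep.{0} ℤ Δ) (π₀ : GQ →* Δ) (σ : GQ) (y : Y.V) :
    Y.ρ (π₀ σ) (Y.ρ (π₀ σ⁻¹) y) = y := by
  have h : Y.ρ (π₀ σ) (Y.ρ (π₀ σ⁻¹) y) = (Y.ρ (π₀ σ * π₀ σ⁻¹)) y := by
    rw [map_mul]
    rfl
  rw [h, ← map_mul, mul_inv_cancel, map_one, map_one]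
  rfl

/-- `κ_σ = σ Ψ − Ψ : F → ∏_q J_q(b)`. -/
def s56gdk_kap (σ : GQ) :
    (s56gd_F M hsm).V →+ (∀ q : ↥S, (((s56gd_seam hp2 S hpS).dat b).Jq q).V) where
  toFun f q := (((s56gd_seam hp2 S hpS).dat b).Jq q).ρ (b.q σ)
    (Ψ ((s56gd_F M hsm).ρ (s56gd_pi0 M hsm σ⁻¹) f) q) - Ψ f q
  map_zero' := by
    funext q
    show (((s56gd_seam hp2 S hpS).dat b).Jq q).ρ (b.q σ)
      (Ψ ((s56gd_F M hsm).ρ (s56gd_pi0 M hsm σ⁻¹) 0) q) - Ψ 0 q = 0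
    rw [map_zero, map_zero]
    show (((s56gd_seam hp2 S hpS).dat b).Jq q).ρ (b.q σ) 0 - 0 = 0
    rw [map_zero, sub_zero]
  map_add' f f' := by
    funext q
    show (((s56gd_seam hp2 S hpS).dat b).Jq q).ρ (b.q σ)
      (Ψ ((s56gd_F M hsm).ρ (s56gd_pi0 M hsm σ⁻¹) (f + f')) q) - Ψ (f + f') q =
      ((((s56gd_seam hp2 S hpS).dat b).Jq q).ρ (b.q σ)
        (Ψ ((s56gd_F M hsm).ρ (s56gd_pi0 M hsm σ⁻¹) f) q) - Ψ f q) +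
      ((((s56gd_seam hp2 S hpS).dat b).Jq q).ρ (b.q σ)
        (Ψ ((s56gd_F M hsm).ρ (s56gd_pi0 M hsm σ⁻¹) f') q) - Ψ f' q)
    rw [map_add, map_add, map_add]
    show (((s56gd_seam hp2 S hpS).dat b).Jq q).ρ (b.q σ)
      (Ψ ((s56gd_F M hsm).ρ (s56gd_pi0 M hsm σ⁻¹) f) q +
        Ψ ((s56gd_F M hsm).ρ (s56gd_pi0 M hsm σ⁻¹) f') q) - (Ψ f q + Ψ f' q) = _
    rw [map_add]
    abel

theorem s56gdk_kap_apply (σ : GQ) (f : (s56gd_F M hsm).V) (q : ↥S) :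
    s56gdk_kap hp2 M hsm S hpS b Ψ σ f q =
      (((s56gd_seam hp2 S hpS).dat b).Jq q).ρ (b.q σ)
        (Ψ ((s56gd_F M hsm).ρ (s56gd_pi0 M hsm σ⁻¹) f) q) - Ψ f q := rfl

/-- `κ_σ f` lies in the image of the `S`-units. -/
theorem s56gdk_kap_mem
    (hΨ : ∀ (σ : GQ) (f : (s56gd_F M hsm).V),
      (∑ q : ↥S, (((s56gd_seam hp2 S hpS).dat b).j q).hom
          (Ψ ((s56gd_F M hsm).ρ (s56gd_pi0 M hsm σ) f) q)) =
        ((s56gd_seam hp2 S hpS).dat b).C.ρ (b.q σ)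
          (∑ q : ↥S, (((s56gd_seam hp2 S hpS).dat b).j q).hom (Ψ f q)))
    (σ : GQ) (f : (s56gd_F M hsm).V) :
    s56gdk_kap hp2 M hsm S hpS b Ψ σ f ∈ (s56gdk_epsP hp2 S hpS b).range := by
  have h0 : (∑ q : ↥S, (((s56gd_seam hp2 S hpS).dat b).j q).hom
      (s56gdk_kap hp2 M hsm S hpS b Ψ σ f q)) = 0 := by
    have h1 : ∀ q : ↥S, (((s56gd_seam hp2 S hpS).dat b).j q).hom
        (s56gdk_kap hp2 M hsm S hpS b Ψ σ f q) =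
        ((s56gd_seam hp2 S hpS).dat b).C.ρ (b.q σ)
          ((((s56gd_seam hp2 S hpS).dat b).j q).hom
            (Ψ ((s56gd_F M hsm).ρ (s56gd_pi0 M hsm σ⁻¹) f) q)) -
        (((s56gd_seam hp2 S hpS).dat b).j q).hom (Ψ f q) := by
      intro q
      rw [s56gdk_kap_apply, map_sub, Rep.hom_comm_apply]
    rw [Finset.sum_congr rfl (fun q _ => h1 q), Finset.sum_sub_distrib, ← map_sum,
      ← hΨ σ ((s56gd_F M hsm).ρ (s56gd_pi0 M hsm σ⁻¹) f), s56gdk_rho_inv, sub_self]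
  obtain ⟨e, he⟩ := ((s56gd_seam hp2 S hpS).ε_exact b _).1 h0
  exact ⟨e, funext he⟩

/-- The hypothesis "`Σ_q j_q ∘ Ψ_q` is equivariant". -/
def s56gdk_HPsi : Prop :=
  ∀ (σ : GQ) (f : (s56gd_F M hsm).V),
    (∑ q : ↥S, (((s56gd_seam hp2 S hpS).dat b).j q).hom
        (Ψ ((s56gd_F M hsm).ρ (s56gd_pi0 M hsm σ) f) q)) =
      ((s56gd_seam hp2 S hpS).dat b).C.ρ (b.q σ)
        (∑ q : ↥S, (((s56gd_seam hp2 S hpS).dat b).j q).hom (Ψ f q))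

/-- `c_σ = ε⁻¹ (σ Ψ − Ψ) : F → E(b)`. -/
def s56gdk_c (hΨ : s56gdk_HPsi hp2 M hsm S hpS b Ψ) (σ : GQ) :
    (s56gd_F M hsm).V →+ ((s56gd_seam hp2 S hpS).E b).V :=
  (AddMonoidHom.ofInjective (s56gdk_epsP_injective hp2 S hpS b)).symm.toAddMonoidHom.comp
    ((s56gdk_kap hp2 M hsm S hpS b Ψ σ).codRestrict (s56gdk_epsP hp2 S hpS b).range
      (s56gdk_kap_mem hp2 M hsm S hpS b Ψ hΨ σ))

theorem s56gdk_epsP_c (hΨ : s56gdk_HPsi hp2 M hsm S hpS b Ψ) (σ : GQ)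
    (f : (s56gd_F M hsm).V) :
    s56gdk_epsP hp2 S hpS b (s56gdk_c hp2 M hsm S hpS b Ψ hΨ σ f) =
      s56gdk_kap hp2 M hsm S hpS b Ψ σ f := by
  have h := AddMonoidHom.apply_ofInjective_symm (s56gdk_epsP_injective hp2 S hpS b)
    ((s56gdk_kap hp2 M hsm S hpS b Ψ σ).codRestrict (s56gdk_epsP hp2 S hpS b).range
      (s56gdk_kap_mem hp2 M hsm S hpS b Ψ hΨ σ) f)
  exact h

theorem s56gdk_eps_c (hΨ : s56gdk_HPsi hp2 M hsm S hpS b Ψ) (σ : GQ)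
    (f : (s56gd_F M hsm).V) (q : ↥S) :
    ((s56gd_seam hp2 S hpS).ε b q).hom (s56gdk_c hp2 M hsm S hpS b Ψ hΨ σ f) =
      (((s56gd_seam hp2 S hpS).dat b).Jq q).ρ (b.q σ)
        (Ψ ((s56gd_F M hsm).ρ (s56gd_pi0 M hsm σ⁻¹) f) q) - Ψ f q :=
  congrFun (s56gdk_epsP_c hp2 M hsm S hpS b Ψ hΨ σ f) q

/-- An element of `E(b)` is determined by its images in the `J_q(b)`. -/
theorem s56gdk_E_ext {e e' : ((s56gd_seam hp2 S hpS).E b).V}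
    (h : ∀ q : ↥S, ((s56gd_seam hp2 S hpS).ε b q).hom e =
      ((s56gd_seam hp2 S hpS).ε b q).hom e') : e = e' :=
  s56gdk_epsP_injective hp2 S hpS b (funext h)

/-- **The cocycle identity** for `c`. -/
theorem s56gdk_c_mul (hΨ : s56gdk_HPsi hp2 M hsm S hpS b Ψ) (σ τ : GQ)
    (f : (s56gd_F M hsm).V) :
    s56gdk_c hp2 M hsm S hpS b Ψ hΨ (σ * τ) f =
      ((s56gd_seam hp2 S hpS).E b).ρ (b.q σ)
        (s56gdk_c hp2 M hsm S hpS b Ψ hΨ τ ((s56gd_F M hsm).ρ (s56gd_pi0 M hsm σ⁻¹) f)) +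
      s56gdk_c hp2 M hsm S hpS b Ψ hΨ σ f := by
  apply s56gdk_E_ext hp2 S hpS b
  intro q
  rw [map_add, Rep.hom_comm_apply, s56gdk_eps_c, s56gdk_eps_c, s56gdk_eps_c, map_sub]
  have h1 : (s56gd_F M hsm).ρ (s56gd_pi0 M hsm (σ * τ)⁻¹) f =
      (s56gd_F M hsm).ρ (s56gd_pi0 M hsm τ⁻¹)
        ((s56gd_F M hsm).ρ (s56gd_pi0 M hsm σ⁻¹) f) := by
    rw [mul_inv_rev, map_mul, map_mul]
    rfl
  have h2 : (((s56gd_seam hp2 S hpS).dat b).Jq q).ρ (b.q (σ * τ))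
      (Ψ ((s56gd_F M hsm).ρ (s56gd_pi0 M hsm τ⁻¹)
        ((s56gd_F M hsm).ρ (s56gd_pi0 M hsm σ⁻¹) f)) q) =
      (((s56gd_seam hp2 S hpS).dat b).Jq q).ρ (b.q σ)
        ((((s56gd_seam hp2 S hpS).dat b).Jq q).ρ (b.q τ)
          (Ψ ((s56gd_F M hsm).ρ (s56gd_pi0 M hsm τ⁻¹)
            ((s56gd_F M hsm).ρ (s56gd_pi0 M hsm σ⁻¹) f)) q)) := by
    rw [map_mul, map_mul]
    rfl
  rw [h1, h2]
  abel

/-- `c` is constant on the cosets of `Fix(b.L)`. -/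
theorem s56gdk_c_lc (hΨ : s56gdk_HPsi hp2 M hsm S hpS b Ψ)
    (hb : s56gd_K0 M hsm ≤ s56gd_Fld.ofLev b) (g : GQ) {s : GQ}
    (hs : s ∈ b.L.fixingSubgroup) (f : (s56gd_F M hsm).V) :
    s56gdk_c hp2 M hsm S hpS b Ψ hΨ (g * s) f = s56gdk_c hp2 M hsm S hpS b Ψ hΨ g f := by
  apply s56gdk_E_ext hp2 S hpS b
  intro q
  rw [s56gdk_eps_c, s56gdk_eps_c]
  have h1 : b.q (g * s) = b.q g := by
    rw [map_mul, s56gdk_bq_eq_one S b hs, mul_one]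
  have h2 : s56gd_pi0 M hsm (g * s)⁻¹ = s56gd_pi0 M hsm g⁻¹ := by
    rw [mul_inv_rev, map_mul, map_inv, s56gdk_pi0_eq_one M hsm S b hb hs, inv_one, one_mul]
  rw [h1, h2]

/-- The value of `c_σ` on the relations: `c_σ ∘ ι = σ u − u`. -/
theorem s56gdk_c_iota (hΨ : s56gdk_HPsi hp2 M hsm S hpS b Ψ)
    (hψ : ∀ (σ : GQ) (r : (s56gd_R M hsm).V) (q : ↥S),
      Ψ ((la_ι (s56gd_A M hsm)).hom ((s56gd_R M hsm).ρ (s56gd_pi0 M hsm σ) r)) q -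
          ((s56gd_seam hp2 S hpS).ε b q).hom (u ((s56gd_R M hsm).ρ (s56gd_pi0 M hsm σ) r)) =
        (((s56gd_seam hp2 S hpS).dat b).Jq q).ρ (b.q σ)
          (Ψ ((la_ι (s56gd_A M hsm)).hom r) q - ((s56gd_seam hp2 S hpS).ε b q).hom (u r)))
    (σ : GQ) (r : (s56gd_R M hsm).V) :
    s56gdk_c hp2 M hsm S hpS b Ψ hΨ σ ((la_ι (s56gd_A M hsm)).hom r) =
      ((s56gd_seam hp2 S hpS).E b).ρ (b.q σ) (u ((s56gd_R M hsm).ρ (s56gd_pi0 M hsm σ⁻¹) r)) -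
        u r := by
  apply s56gdk_E_ext hp2 S hpS b
  intro q
  rw [s56gdk_eps_c, map_sub, Rep.hom_comm_apply]
  have h1 : (s56gd_F M hsm).ρ (s56gd_pi0 M hsm σ⁻¹) ((la_ι (s56gd_A M hsm)).hom r) =
      (la_ι (s56gd_A M hsm)).hom ((s56gd_R M hsm).ρ (s56gd_pi0 M hsm σ⁻¹) r) :=
    (Rep.hom_comm_apply (la_ι (s56gd_A M hsm)) _ r).symm
  rw [h1]
  have h2 := hψ σ ((s56gd_R M hsm).ρ (s56gd_pi0 M hsm σ⁻¹) r) q
  rw [s56gdk_rho_inv, map_sub] at h2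
  rw [sub_eq_iff_eq_add] at h2 ⊢
  rw [h2]
  abel

/-- `C σ = incl_b ∘ c_σ ∈ T_F`. -/
def s56gdk_C (hΨ : s56gdk_HPsi hp2 M hsm S hpS b Ψ) (σ : GQ) :
    dm_T S (s56gd_pi0 M hsm) (s56gd_F M hsm) :=
  LvHom.of ((dm_ql_incl (s56gd_seam hp2 S hpS) b).comp (s56gdk_c hp2 M hsm S hpS b Ψ hΨ σ))

theorem s56gdk_C_apply (hΨ : s56gdk_HPsi hp2 M hsm S hpS b Ψ) (σ : GQ)
    (f : (s56gd_F M hsm).V) :
    s56gdk_C hp2 M hsm S hpS b Ψ hΨ σ f =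
      dm_ql_incl (s56gd_seam hp2 S hpS) b (s56gdk_c hp2 M hsm S hpS b Ψ hΨ σ f) := rfl

theorem s56gdk_C_cocycle (hΨ : s56gdk_HPsi hp2 M hsm S hpS b Ψ) :
    IsCocycle₁ (s56gdk_C hp2 M hsm S hpS b Ψ hΨ) := by
  intro σ τ
  refine LvHom.ext fun (f : (s56gd_F M hsm).V) => ?_
  show dm_ql_incl (s56gd_seam hp2 S hpS) b (s56gdk_c hp2 M hsm S hpS b Ψ hΨ (σ * τ) f) =
    σ • dm_ql_incl (s56gd_seam hp2 S hpS) b (s56gdk_c hp2 M hsm S hpS b Ψ hΨ τ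
      ((s56gd_F M hsm).ρ (s56gd_pi0 M hsm σ⁻¹) f)) +
    dm_ql_incl (s56gd_seam hp2 S hpS) b (s56gdk_c hp2 M hsm S hpS b Ψ hΨ σ f)
  rw [← dm_ql_incl_smul, ← map_add, s56gdk_c_mul]

theorem s56gdk_C_lc (hΨ : s56gdk_HPsi hp2 M hsm S hpS b Ψ)
    (hb : s56gd_K0 M hsm ≤ s56gd_Fld.ofLev b) :
    (tl_levelsS S).IsLC1 (s56gdk_C hp2 M hsm S hpS b Ψ hΨ) := by
  refine ⟨b.L.fixingSubgroup, ⟨b.L, b.unr, rfl⟩, fun g s hs => ?_⟩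
  refine LvHom.ext fun (f : (s56gd_F M hsm).V) => ?_
  show dm_ql_incl (s56gd_seam hp2 S hpS) b (s56gdk_c hp2 M hsm S hpS b Ψ hΨ (g * s) f) =
    dm_ql_incl (s56gd_seam hp2 S hpS) b (s56gdk_c hp2 M hsm S hpS b Ψ hΨ g f)
  rw [s56gdk_c_lc hp2 M hsm S hpS b Ψ hΨ hb g hs]

/-- `ut` as an element of `T_F`. -/
def s56gdk_utT : dm_T S (s56gd_pi0 M hsm) (s56gd_F M hsm) := LvHom.of ut

/-- `z̃ = C − d(ut) : G_ℚ → T_F`. -/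
def s56gdk_Zt (hΨ : s56gdk_HPsi hp2 M hsm S hpS b Ψ) :
    GQ → dm_T S (s56gd_pi0 M hsm) (s56gd_F M hsm) :=
  s56gdk_C hp2 M hsm S hpS b Ψ hΨ -
    lvD0 GQ (dm_T S (s56gd_pi0 M hsm) (s56gd_F M hsm)) (s56gdk_utT M hsm S ut)

theorem s56gdk_Zt_apply (hΨ : s56gdk_HPsi hp2 M hsm S hpS b Ψ) (σ : GQ)
    (f : (s56gd_F M hsm).V) :
    s56gdk_Zt hp2 M hsm S hpS b Ψ ut hΨ σ f =
      dm_ql_incl (s56gd_seam hp2 S hpS) b (s56gdk_c hp2 M hsm S hpS b Ψ hΨ σ f) -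
        (σ • ut ((s56gd_F M hsm).ρ (s56gd_pi0 M hsm σ⁻¹) f) - ut f) := rfl

include hpS in
theorem s56gdk_smooth_TF (hur : s56gw_UnrOut S M) :
    (tl_levelsS S).IsSmooth (dm_T S (s56gd_pi0 M hsm) (s56gd_F M hsm)) :=
  dm_isSmooth_TF S M (s56gd_pi0 M hsm) (s56gd_A M hsm) (s56gd_e M hsm)
    (s56gdk_hpi0 M hsm S hpS hur)

theorem s56gdk_Zt_mem (hΨ : s56gdk_HPsi hp2 M hsm S hpS b Ψ) (hur : s56gw_UnrOut S M)
    (hb : s56gd_K0 M hsm ≤ s56gd_Fld.ofLev b) :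
    s56gdk_Zt hp2 M hsm S hpS b Ψ ut hΨ ∈
      lvZ1 (tl_levelsS S) (dm_T S (s56gd_pi0 M hsm) (s56gd_F M hsm)) := by
  have h1 : s56gdk_C hp2 M hsm S hpS b Ψ hΨ ∈
      lvZ1 (tl_levelsS S) (dm_T S (s56gd_pi0 M hsm) (s56gd_F M hsm)) :=
    ⟨s56gdk_C_cocycle hp2 M hsm S hpS b Ψ hΨ, s56gdk_C_lc hp2 M hsm S hpS b Ψ hΨ hb⟩
  have h2 : lvD0 GQ (dm_T S (s56gd_pi0 M hsm) (s56gd_F M hsm)) (s56gdk_utT M hsm S ut) ∈
      lvZ1 (tl_levelsS S) (dm_T S (s56gd_pi0 M hsm) (s56gd_F M hsm)) :=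
    ⟨isCocycle₁_lvD0 _, isLC1_lvD0 (s56gdk_smooth_TF M hsm S hpS hur) _⟩
  exact (lvZ1 (tl_levelsS S) (dm_T S (s56gd_pi0 M hsm) (s56gd_F M hsm))).sub_mem h1 h2

/-- `z̃` is killed by `T_F → T_R`. -/
theorem s56gdk_pi_Zt (hΨ : s56gdk_HPsi hp2 M hsm S hpS b Ψ)
    (hu : ∀ r : (s56gd_R M hsm).V,
      dm_ql_incl (s56gd_seam hp2 S hpS) b (u r) = ut ((la_ι (s56gd_A M hsm)).hom r))
    (hψ : ∀ (σ : GQ) (r : (s56gd_R M hsm).V) (q : ↥S),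
      Ψ ((la_ι (s56gd_A M hsm)).hom ((s56gd_R M hsm).ρ (s56gd_pi0 M hsm σ) r)) q -
          ((s56gd_seam hp2 S hpS).ε b q).hom (u ((s56gd_R M hsm).ρ (s56gd_pi0 M hsm σ) r)) =
        (((s56gd_seam hp2 S hpS).dat b).Jq q).ρ (b.q σ)
          (Ψ ((la_ι (s56gd_A M hsm)).hom r) q - ((s56gd_seam hp2 S hpS).ε b q).hom (u r)))
    (σ : GQ) :
    (s56gdk_Eg M hsm S hpS).π (s56gdk_Zt hp2 M hsm S hpS b Ψ ut hΨ σ) = 0 := by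
  refine LvHom.ext fun (r : (s56gd_R M hsm).V) => ?_
  show s56gdk_Zt hp2 M hsm S hpS b Ψ ut hΨ σ ((la_ι (s56gd_A M hsm)).hom r) = 0
  rw [s56gdk_Zt_apply, s56gdk_c_iota hp2 M hsm S hpS b Ψ u hΨ hψ, map_sub, dm_ql_incl_smul,
    hu, hu]
  have h1 : (s56gd_F M hsm).ρ (s56gd_pi0 M hsm σ⁻¹) ((la_ι (s56gd_A M hsm)).hom r) =
      (la_ι (s56gd_A M hsm)).hom ((s56gd_R M hsm).ρ (s56gd_pi0 M hsm σ⁻¹) r) :=
    (Rep.hom_comm_apply (la_ι (s56gd_A M hsm)) _ r).symm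
  rw [h1, sub_self]

end Theta

end Core

/-- **θ-data have a level-constant cocycle.** -/
theorem s56gdk_coreE : s56gdk_CoreE_stmt := by
  intro p _ hp2 M _ hsm S hpS hur b hb Ψ ut u hθ
  obtain ⟨hu, hΨ0, hψ⟩ := hθ
  have hΨ : s56gdk_HPsi hp2 M hsm S hpS b Ψ := hΨ0
  have hmem := s56gdk_Zt_mem hp2 M hsm S hpS b Ψ ut hΨ hur hb
  have hπ := s56gdk_pi_Zt hp2 M hsm S hpS b Ψ ut u hΨ hu hψ
  refine ⟨⟨(s56gdk_Eg M hsm S hpS).desc1 (s56gdk_Zt hp2 M hsm S hpS b Ψ ut hΨ),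
    (s56gdk_Eg M hsm S hpS).isCocycle₁_desc1 hπ hmem.1,
    (s56gdk_Eg M hsm S hpS).isLC1_desc1 (tl_levelsS S) hmem.2⟩, ?_⟩
  intro σ f
  refine ⟨s56gdk_c hp2 M hsm S hpS b Ψ hΨ σ f, fun q => s56gdk_eps_c hp2 M hsm S hpS b Ψ hΨ σ f q,
    ?_⟩
  have h1 : (s56gdk_Eg M hsm S hpS).i
      ((s56gdk_Eg M hsm S hpS).desc1 (s56gdk_Zt hp2 M hsm S hpS b Ψ ut hΨ) σ) =
      s56gdk_Zt hp2 M hsm S hpS b Ψ ut hΨ σ := (s56gdk_Eg M hsm S hpS).i_desc1 hπ σ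
  show (s56gdk_Eg M hsm S hpS).i
      ((s56gdk_Eg M hsm S hpS).desc1 (s56gdk_Zt hp2 M hsm S hpS b Ψ ut hΨ) σ) f = _
  rw [h1]
  rfl

end

end Fermat.Agent.S56
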